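import Fermat.Agent.S33.H270.KeySpec
import Fermat.Agent.A3.H319.Level

/-!
# S33 — the level bridge (the `p = 3` gap of the wall at `p`)  — helper92

The wall at `p` (clause (S2) of `S33.OrdFilStatement`) needs the semistable model `A2.ModSSData`
at level `N = p M'` with `q = p`.  For `p = 3` the A2 block produces it only when `2 ∣ N`
(`A2.Top.H994.ModSSGoodStatement`), and the A2 descent to odd levels (norm of degree `3`) is not
available for `3`-torsion.  This file removes the problem at the level of **(K)**: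

* `keyAt_of_injOn`        : (K) descends along any equivariant additive map which is injective on
                            `p`-torsion (abstract, Mathlib + `KeyCore` only);
* `keyAt_of_keyAt_mul`    : `KeyAt I p J₀(N q) → KeyAt I p J₀(N)` for every prime `q ≠ p`
                            (pull-back `A3.H319.levelPull`, injective on torsion prime to `q` by
                            `A3.H319.eq_zero_of_levelPull_eq_zero`, which is on main);
* `OrdFilReadyStatement`  : `S33.OrdFilStatement` restricted to READY levels (`p = 3 → 2 ∣ M'`);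
* `keyStatement_of_ready` : `OrdFilReadyStatement → OldAugStatement → KeyStatement`.

So the wall only has to deliver (S2) at levels `p M'` with `2 ∣ M'` when `p = 3`.
-/

set_option autoImplicit false
set_option linter.style.haveILetI false

namespace Fermat.Agent.S33.H92

open Fermat.Agent.S33 Fermat.Agent.S31

/-! ### Abstract transfer -/

section Abstract

variable {G : Type*} [Group G] {J J' : Type*} [AddCommGroup J] [AddCommGroup J']
  [DistribMulAction G J] [DistribMulAction G J']

/-- **Transfer of (K)** along an equivariant additive map which is injective on `p`-torsion. -/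
theorem keyAt_of_injOn (f : J →+ J') (hf : ∀ (σ : G) (x : J), f (σ • x) = σ • f x)
    (I : Subgroup G) (p : ℕ) (hinj : ∀ x : J, p • x = 0 → f x = 0 → x = 0)
    (hK : KeyAt I p J') : KeyAt I p J := by
  intro Y hYG hY y hy
  have hY' : Y.map f ≤ Fermat.Agent.S33.iAug I (Y.map f) := by
    refine hK (Y.map f) ?_ ?_
    · rintro σ _ ⟨z, hz, rfl⟩
      exact ⟨σ • z, hYG σ z hz, hf σ z⟩
    · rintro _ ⟨z, hz, rfl⟩
      exact (Fermat.Agent.S33.H270.spec_inSPlus_iff I p _).mpr
        (((Fermat.Agent.S33.H270.spec_inSPlus_iff I p _).mp (hY z hz)).map f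
          (fun σ _ x => hf σ x))
  obtain ⟨w, hw, hwy⟩ := Fermat.Agent.S33.H270.exists_mem_iAug_of_mem_iAug_map f
    (fun σ _ x => hf σ x) (hY' (AddSubgroup.mem_map_of_mem f hy))
  have hwY : w ∈ Y := Fermat.Agent.S33.H270.iAug_le_self (fun σ _ z hz => hYG σ z hz) hw
  have h0 : y - w = 0 :=
    hinj (y - w) (by rw [smul_sub, (hY y hy).1, (hY w hwY).1, sub_zero])
      (by rw [map_sub, hwy, sub_self])
  rw [sub_eq_zero] at h0
  rw [h0]
  exact hw

end Abstract

/-! ### The level bridge for `J₀` -/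

open ModularCurve

/-- **Level bridge.**  (K) at level `N q` implies (K) at level `N`, for every auxiliary prime
`q ≠ p` (no condition on `N`). -/
theorem keyAt_of_keyAt_mul {p : ℕ} (hp : p.Prime) (N : ℕ) [NeZero N] {q : ℕ} [NeZero q]
    (hq : q.Prime) (hqp : q ≠ p) (I : Subgroup GQ) (hK : KeyAt I p (JZero (N * q))) :
    KeyAt I p (JZero N) := by
  haveI : NeZero p := ⟨hp.ne_zero⟩
  refine keyAt_of_injOn (Fermat.Agent.A3.H319.levelPull N q)
    (fun σ x => Fermat.Agent.A3.H319.levelPull_smul N q σ x) I p (fun x hx h0 => ?_) hK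
  refine Fermat.Agent.A3.H319.eq_zero_of_levelPull_eq_zero N q hq p
    ((Nat.coprime_primes hq hp).mpr hqp) ?_ h0
  rw [natCast_zsmul]
  exact hx

/-! ### READY levels -/

/-- **NEW at READY levels**: `S33.OrdFilStatement` with the extra hypothesis `p = 3 → 2 ∣ M'`
(the levels at which `A2.Top.H994.ModSSGoodStatement` provides the semistable model at
`q = p`). -/
def OrdFilReadyStatement : Prop :=
  ∀ (p M' : ℕ) [NeZero M'] [NeZero (p * M')], p.Prime → p ≠ 2 → ¬ p ∣ M' → (p = 3 → 2 ∣ M') →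
    ∃ (α β : ModularCurve.JZero (p * M') →+ ModularCurve.JZero M'),
      (∀ (σ : GQ) (x : ModularCurve.JZero (p * M')), α (σ • x) = σ • α x) ∧
      (∀ (σ : GQ) (x : ModularCurve.JZero (p * M')), β (σ • x) = σ • β x) ∧
      ∀ A : ValuationSubring Qb, A.LiesOverPrime p →
        ∃ 𝒮 : Set (ModularCurve.JZero (p * M')),
          (∀ x : ModularCurve.JZero (p * M'), InSPlus (A.inertiaSubgroupIn ℚ) p x → x ∈ 𝒮) ∧
          (∀ x ∈ 𝒮, p • x = 0 → α x = 0 → β x = 0 →
            ∀ σ ∈ A.inertiaSubgroupIn ℚ, ∀ c : ℕ,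
              (∀ ζ : Qb, ζ ^ p = 1 → σ ζ = ζ ^ c) → σ • x = c • x)

/-- The full statement implies the READY one. -/
theorem ordFilReady_of_ordFil (h : OrdFilStatement) : OrdFilReadyStatement :=
  fun p M' _ _ hp hp2 hpM' _ => h p M' hp hp2 hpM'

/-- **(K) at a READY level** (the proof of `H270.keyStatement`, level by level). -/
theorem keyAt_of_ready (hNEW : OrdFilReadyStatement) (hOLD : OldAugStatement)
    {p : ℕ} (hp : p.Prime) (hp2 : p ≠ 2) (N : ℕ) [NeZero N] (hN : p ∣ N) (hN2 : ¬ p ^ 2 ∣ N)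
    (hr : p = 3 → 2 ∣ N) (P : ValuationSubring Qb) (hP : P.LiesOverPrime p) :
    KeyAt (P.inertiaSubgroupIn ℚ) p (JZero N) := by
  obtain ⟨M', rfl⟩ := hN
  have hM' : M' ≠ 0 := by
    rintro rfl
    exact NeZero.ne (p * 0) (mul_zero p)
  haveI : NeZero M' := ⟨hM'⟩
  have hpM' : ¬ p ∣ M' := by
    rintro ⟨k, rfl⟩
    exact hN2 ⟨k, by ring⟩
  have hr' : p = 3 → 2 ∣ M' := by
    intro h3
    have h2 : 2 ∣ p * M' := hr h3
    subst h3
    exact (Nat.Coprime.dvd_of_dvd_mul_left (by decide) h2)
  obtain ⟨α, β, hα, hβ, hfil⟩ := hNEW p M' hp hp2 hpM' hr'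
  obtain ⟨𝒮, hS1, hS2⟩ := hfil P hP
  obtain ⟨σ₀, hσ₀, c₀, d, hc₀, hcd⟩ :=
    Fermat.Agent.S33.H270.exists_inertia_scalar_spec hp hp2 P hP
  intro Y hYG hY
  rw [Fermat.Agent.S33.H270.spec_iAug_eq]
  refine Fermat.Agent.S33.H270.key_of (I := P.inertiaSubgroupIn ℚ) (p := p) α β hα hβ hσ₀ hcd 𝒮
    (fun x hx => hS1 x hx) (fun x hx hpx hαx hβx => hS2 x hx hpx hαx hβx σ₀ hσ₀ c₀ hc₀)
    (fun Y' hY'G hY' => hOLD p M' hp hp2 hpM' P hP Y' hY'G hY') Y hYG hY

/-- **KEY from the wall at READY levels.** -/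
theorem keyStatement_of_ready (hNEW : OrdFilReadyStatement) (hOLD : OldAugStatement) :
    KeyStatement := by
  intro p N _ hp hp2 hN hN2 P hP
  by_cases hr : p = 3 → 2 ∣ N
  · exact keyAt_of_ready hNEW hOLD hp hp2 N hN hN2 hr P hP
  · -- `p = 3`, `N` odd: go up to level `N * 2`
    refine keyAt_of_keyAt_mul hp N Nat.prime_two (Ne.symm hp2) _ ?_
    refine keyAt_of_ready hNEW hOLD hp hp2 (N * 2) (hN.mul_right 2) ?_
      (fun _ => dvd_mul_left 2 N) P hP
    intro h
    apply hN2
    have hcop : Nat.Coprime (p ^ 2) 2 :=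
      Nat.Coprime.pow_left 2 ((Nat.coprime_primes hp Nat.prime_two).mpr hp2)
    exact hcop.dvd_of_dvd_mul_right h

end Fermat.Agent.S33.H92
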