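import Fermat.Agent.S33.H92.LevelBridge
import Fermat.Agent.S33.H862.OrdFil

/-!
# S33 — the chain from the wall at READY levels (helper92)

`Ribet.H884.S2Statement` cannot be produced by the wall at the levels `3 M'` with `M'` odd
(no semistable model `A2.ModSSData` at `q = 3` there).  This file states the READY form of (S2)
and wires it to (K):

* `S2ReadyStatement`        : `Ribet.H884.S2Statement` with the extra hypothesis `p = 3 → 2 ∣ M'`;
* `s2Ready_of_s2`           : the full statement implies the READY one;
* `ordFilReady_of_s2Ready`  : `S2ReadyStatement → OrdFilReadyStatement`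
                              (the proof of `S33.H862.ordFil_of_s2`, level by level);
* `keyStatement_of_s2Ready` : `S2ReadyStatement → OldAugStatement → KeyStatement`.
-/

set_option autoImplicit false
set_option linter.unusedSectionVars false
set_option linter.style.haveILetI false
set_option synthInstance.maxHeartbeats 400000
set_option maxHeartbeats 1000000

noncomputable section

namespace Fermat.Agent.S33.H92

open ModularCurve
open Fermat.Agent.Ribet.H884 Fermat.Agent.Ribet.H944.Wall Fermat.Agent.Ribet.H801

/-- **(S2) at READY levels**: `Ribet.H884.S2Statement` with the extra hypothesis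
`p = 3 → 2 ∣ M'`. -/
def S2ReadyStatement : Prop :=
  ∀ (p M' : ℕ) [NeZero M'] [NeZero p] [NeZero (p * M')], p.Prime → p ≠ 2 → ¬ p ∣ M' →
    (p = 3 → 2 ∣ M') →
    ∀ A : ValuationSubring (AlgebraicClosure ℚ), A.LiesOverPrime p →
      S2For p M' A (splitPart p M' A)

/-- The full (S2) implies the READY one. -/
theorem s2Ready_of_s2 (h : S2Statement) : S2ReadyStatement :=
  fun p M' _ _ _ hp hp2 hpM _ A hA => h p M' hp hp2 hpM A hA

/-- **NEW at READY levels** from (S2) at READY levels. -/
theorem ordFilReady_of_s2Ready (h2 : S2ReadyStatement) : OrdFilReadyStatement := by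
  intro p M' _ _ hp hp2 hpM hr
  haveI : NeZero p := ⟨hp.ne_zero⟩
  refine ⟨alphaL p M', betaL p M', alphaL_smul p M', betaL_smul p M', fun A hA => ?_⟩
  refine ⟨(Fermat.Agent.S33.H855.splitMin A hp.ne_zero hA (p * M') : Set (JZero (p * M'))),
    fun x hx => Fermat.Agent.S33.H862.mem_splitMin_of_inSPlus hp (p * M') A hA x hx, ?_⟩
  intro x hx hpx hα hβ σ hσ c hc
  exact h2 p M' hp hp2 hpM hr A hA x
    (Fermat.Agent.S33.H862.splitMin_le_splitPart p M' A hp.ne_zero hA hx) ⟨hpx, hα, hβ⟩ σ hσ c hc

/-- **KEY from (S2) at READY levels.** -/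
theorem keyStatement_of_s2Ready (h2 : S2ReadyStatement)
    (hOLD : Fermat.Agent.S33.OldAugStatement) : Fermat.Agent.S33.KeyStatement :=
  keyStatement_of_ready (ordFilReady_of_s2Ready h2) hOLD

end Fermat.Agent.S33.H92

end
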